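/-
Item 68 (S37), KRON (K1-core), helper25: Kronecker's congruence for Laurent series.

For a primitive `ℓ`-th root of unity `ζ` in a domain `R`, a ring hom `red : R → k` with
`red ζ = 1` (so `k` has characteristic `ℓ`) and `y ∈ R((t))`:
the polynomial `∏_{b<ℓ} (X − y(ζ^b t))` has coefficients in `R((t^ℓ))`, i.e. it is
`Q.map (qExpand R ℓ)` for a monic `Q` of degree `ℓ`, and `Q` reduces to `X^ℓ − ȳ^{(ℓ)}`, where
`ȳ^{(ℓ)}` is `ȳ = red y` with all coefficients raised to the `ℓ`-th power.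
Helper lemmas are prefixed `kc_`.
-/
import Mathlib
import Fermat.Prelude.Def_ModularCurve_X0
import Fermat.Prelude.Def_ModularCurve_LaurentCoeff

set_option autoImplicit false

noncomputable section

namespace Fermat.Agent.Kron

open ModularCurve Polynomial

variable {R : Type*} [CommRing R]

/-! ### the twist `y(t) ↦ y(ζ t)` -/

/-- `y(t) ↦ y(ζ t)`, on coefficients `a_n ↦ ζ^n a_n` -/
def twistFun (ζ : Rˣ) (x : LaurentSeries R) : LaurentSeries R where
  coeff n := ((ζ ^ n : Rˣ) : R) * x.coeff n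
  isPWO_support' := x.isPWO_support.mono fun n hn => by
    simp only [Function.mem_support, ne_eq] at hn ⊢
    intro h
    exact hn (by rw [h, mul_zero])

@[simp] theorem twistFun_coeff (ζ : Rˣ) (x : LaurentSeries R) (n : ℤ) :
    (twistFun ζ x).coeff n = ((ζ ^ n : Rˣ) : R) * x.coeff n := rfl

theorem twistFun_support (ζ : Rˣ) (x : LaurentSeries R) :
    (twistFun ζ x).support = x.support := by
  ext n
  simp only [HahnSeries.mem_support, twistFun_coeff, ne_eq]
  rw [Units.mul_right_eq_zero]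

/-- the twist as a ring homomorphism -/
def twist (ζ : Rˣ) : LaurentSeries R →+* LaurentSeries R where
  toFun := twistFun ζ
  map_zero' := by ext n; simp
  map_one' := by
    ext n
    simp only [twistFun_coeff, HahnSeries.coeff_one]
    split_ifs with h
    · subst h; simp
    · simp
  map_add' x y := by ext n; simp [mul_add]
  map_mul' x y := by
    ext n
    rw [HahnSeries.coeff_mul_left' (x := twistFun ζ x) (s := x.support) x.isPWO_support
        (twistFun_support ζ x).le,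
      twistFun_coeff, HahnSeries.coeff_mul, Finset.mul_sum]
    have hy : (twistFun ζ y).support = y.support := twistFun_support ζ y
    have key : ∀ (s : Set ℤ) (hs : s.IsPWO) (_ : s = y.support),
        ∑ ij ∈ Finset.antidiagonal x.isPWO_support hs n,
          (twistFun ζ x).coeff ij.1 * (twistFun ζ y).coeff ij.2
        = ∑ ij ∈ Finset.antidiagonal x.isPWO_support y.isPWO_support n,
          ((ζ ^ n : Rˣ) : R) * (x.coeff ij.1 * y.coeff ij.2) := by
      intro s hs h
      subst h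
      refine Finset.sum_congr rfl fun ij hij => ?_
      have h3 : ij.1 + ij.2 = n := (Finset.mem_antidiagonal.mp hij).2.2
      rw [twistFun_coeff, twistFun_coeff, ← h3, zpow_add, Units.val_mul]
      ring
    exact (key _ _ hy).symm

@[simp] theorem twist_coeff (ζ : Rˣ) (x : LaurentSeries R) (n : ℤ) :
    (twist ζ x).coeff n = ((ζ ^ n : Rˣ) : R) * x.coeff n := rfl

theorem twist_one (x : LaurentSeries R) : twist (1 : Rˣ) x = x := by
  ext n; simp

theorem twist_mul (ζ ξ : Rˣ) (x : LaurentSeries R) : twist (ζ * ξ) x = twist ζ (twist ξ x) := by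
  ext n
  rw [twist_coeff, twist_coeff, twist_coeff, mul_zpow, Units.val_mul, mul_assoc]

theorem twist_pow_succ (ζ : Rˣ) (b : ℕ) (x : LaurentSeries R) :
    twist (ζ ^ (b + 1)) x = twist ζ (twist (ζ ^ b) x) := by
  rw [pow_succ', twist_mul]

theorem coeffMap_twist {k : Type*} [CommRing k] (red : R →+* k) (ζ : Rˣ) (hred : red ζ = 1)
    (x : LaurentSeries R) : coeffMap red (twist ζ x) = coeffMap red x := by
  ext n
  rw [coeffMap_coeff, coeffMap_coeff, twist_coeff, map_mul]
  have h1 : red ((ζ ^ n : Rˣ) : R) = 1 := by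
    have := congrArg (fun u : kˣ => (u : k)) (map_zpow (Units.map (red : R →* k)) ζ n)
    simp only [Units.coe_map, MonoidHom.coe_coe] at this
    rw [this]
    have h2 : Units.map (red : R →* k) ζ = 1 := Units.ext (by simpa using hred)
    rw [h2, one_zpow, Units.val_one]
  rw [h1, one_mul]

/-! ### Frobenius on Laurent series in characteristic `ℓ` -/

section Frob

variable {k : Type*} [CommRing k] (ℓ : ℕ) [hℓ : Fact ℓ.Prime] [CharP k ℓ]

theorem kc_powerSeries_coeff_pow (f : PowerSeries k) (n : ℕ) :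
    PowerSeries.coeff n (f ^ ℓ) =
      if ℓ ∣ n then (PowerSeries.coeff (n / ℓ) f) ^ ℓ else 0 := by
  have h := MvPowerSeries.map_frobenius_expand (σ := Unit) (p := ℓ) (hp := hℓ.out.ne_zero)
    (f := f)
  have h' : PowerSeries.map (frobenius k ℓ) (PowerSeries.expand ℓ hℓ.out.ne_zero f) = f ^ ℓ := h
  rw [← h', PowerSeries.coeff_map, PowerSeries.coeff_expand]
  split_ifs with hd
  · rw [frobenius_def]
  · rw [map_zero]

theorem kc_ofPowerSeries_coeff_neg (f : PowerSeries k) {n : ℤ} (hn : n < 0) :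
    (HahnSeries.ofPowerSeries ℤ k f).coeff n = 0 := by
  rw [HahnSeries.ofPowerSeries_apply]
  refine HahnSeries.embDomain_of_notMem_range ?_
  rintro ⟨m, hm⟩
  have : (0 : ℤ) ≤ n := by rw [← hm]; exact Int.natCast_nonneg m
  omega

theorem kc_ofPowerSeries_pow_char (f : PowerSeries k) :
    HahnSeries.ofPowerSeries ℤ k (f ^ ℓ) =
      qExpand k ℓ (coeffMap (frobenius k ℓ) (HahnSeries.ofPowerSeries ℤ k f)) := by
  have : NeZero ℓ := ⟨hℓ.out.ne_zero⟩
  ext n
  by_cases hd : (ℓ : ℤ) ∣ n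
  · obtain ⟨m, rfl⟩ := hd
    rw [qExpand_coeff_mul, coeffMap_coeff]
    rcases lt_or_ge m 0 with hm | hm
    · have hneg : (ℓ : ℤ) * m < 0 :=
        mul_neg_of_pos_of_neg (by exact_mod_cast hℓ.out.pos) hm
      rw [kc_ofPowerSeries_coeff_neg _ hneg, kc_ofPowerSeries_coeff_neg _ hm, map_zero]
    · obtain ⟨M, rfl⟩ := Int.eq_ofNat_of_zero_le hm
      have e : (ℓ : ℤ) * (M : ℤ) = ((ℓ * M : ℕ) : ℤ) := by push_cast; ring
      rw [e, HahnSeries.ofPowerSeries_apply_coeff, HahnSeries.ofPowerSeries_apply_coeff,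
        kc_powerSeries_coeff_pow, if_pos (Dvd.intro M rfl),
        Nat.mul_div_cancel_left _ hℓ.out.pos, frobenius_def]
  · rw [qExpand_coeff_of_not_dvd _ _ hd]
    rcases lt_or_ge n 0 with hn | hn
    · exact kc_ofPowerSeries_coeff_neg _ hn
    · obtain ⟨N', rfl⟩ := Int.eq_ofNat_of_zero_le hn
      rw [HahnSeries.ofPowerSeries_apply_coeff, kc_powerSeries_coeff_pow, if_neg]
      intro h
      exact hd (by exact_mod_cast h)

/-- in characteristic `ℓ`: `y(t)^ℓ = y^{(ℓ)}(t^ℓ)` -/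
theorem kc_pow_char (y : LaurentSeries k) :
    y ^ ℓ = qExpand k ℓ (coeffMap (frobenius k ℓ) y) := by
  have : NeZero ℓ := ⟨hℓ.out.ne_zero⟩
  conv_lhs => rw [← LaurentSeries.single_order_mul_powerSeriesPart y]
  conv_rhs => rw [← LaurentSeries.single_order_mul_powerSeriesPart y]
  rw [mul_pow, map_mul, map_mul, HahnSeries.single_pow, one_pow, ← map_pow,
    kc_ofPowerSeries_pow_char, coeffMap_single, qExpand_single, frobenius_def, one_pow,
    nsmul_eq_mul]

end Frob

/-! ### series in `t^ℓ` -/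

section Contract

variable (ℓ : ℕ) [NeZero ℓ]

theorem kc_bddBelow (y : LaurentSeries R) :
    BddBelow (Function.support fun n : ℤ => y.coeff ((ℓ : ℤ) * n)) := by
  refine ⟨min y.order 0, fun n hn => ?_⟩
  have h1 : y.order ≤ (ℓ : ℤ) * n := HahnSeries.order_le_of_coeff_ne_zero hn
  have hℓ : (1 : ℤ) ≤ (ℓ : ℤ) := by exact_mod_cast Nat.one_le_iff_ne_zero.mpr (NeZero.ne ℓ)
  rcases le_or_gt 0 n with h | h
  · exact (min_le_right _ _).trans h
  · refine (min_le_left _ _).trans (h1.trans ?_)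
    nlinarith

/-- `Σ a_n t^n ↦ Σ a_{ℓ n} t^n` -/
def qContract (y : LaurentSeries R) : LaurentSeries R :=
  HahnSeries.ofSuppBddBelow (fun n : ℤ => y.coeff ((ℓ : ℤ) * n)) (kc_bddBelow ℓ y)

@[simp] theorem qContract_coeff (y : LaurentSeries R) (n : ℤ) :
    (qContract ℓ y).coeff n = y.coeff ((ℓ : ℤ) * n) := rfl

theorem qContract_zero : qContract ℓ (0 : LaurentSeries R) = 0 := by
  ext n; simp

theorem qContract_qExpand (y : LaurentSeries R) : qContract ℓ (qExpand R ℓ y) = y := by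
  ext n
  rw [qContract_coeff, qExpand_coeff_mul]

theorem qExpand_qContract {y : LaurentSeries R}
    (h : ∀ n : ℤ, ¬ (ℓ : ℤ) ∣ n → y.coeff n = 0) : qExpand R ℓ (qContract ℓ y) = y := by
  ext n
  by_cases hd : (ℓ : ℤ) ∣ n
  · obtain ⟨m, rfl⟩ := hd
    rw [qExpand_coeff_mul, qContract_coeff]
  · rw [qExpand_coeff_of_not_dvd _ _ hd, h n hd]

omit [NeZero ℓ] in
/-- a series fixed by the twist by a primitive `ℓ`-th root of unity is a series in `t^ℓ` -/
theorem kc_coeff_eq_zero_of_twist_eq [IsDomain R] {ζ : Rˣ} (hζ : IsPrimitiveRoot ζ ℓ)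
    {y : LaurentSeries R} (hy : twist ζ y = y) {n : ℤ} (hn : ¬ (ℓ : ℤ) ∣ n) : y.coeff n = 0 := by
  have h1 : ((ζ ^ n : Rˣ) : R) * y.coeff n = y.coeff n := by
    rw [← twist_coeff, hy]
  have h2 : (((ζ ^ n : Rˣ) : R) - 1) * y.coeff n = 0 := by
    rw [sub_mul, h1, one_mul, sub_self]
  rcases mul_eq_zero.mp h2 with h | h
  · exfalso
    apply hn
    rw [← hζ.zpow_eq_one_iff_dvd]
    exact Units.ext (by simpa using sub_eq_zero.mp h)
  · exact h

end Contract

/-! ### the product over the twists -/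

section Product

variable (ℓ : ℕ)

/-- `∏_{b<ℓ} (X − y(ζ^b t))` -/
def twistProd (ζ : Rˣ) (y : LaurentSeries R) : (LaurentSeries R)[X] :=
  ∏ b ∈ Finset.range ℓ, (X - C (twist (ζ ^ b) y))

theorem twistProd_monic (ζ : Rˣ) (y : LaurentSeries R) : (twistProd ℓ ζ y).Monic :=
  monic_prod_of_monic _ _ fun _ _ => monic_X_sub_C _

theorem twistProd_natDegree [Nontrivial R] (ζ : Rˣ) (y : LaurentSeries R) :
    (twistProd ℓ ζ y).natDegree = ℓ := by
  rw [twistProd, natDegree_prod_of_monic _ _ fun _ _ => monic_X_sub_C _]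
  simp

theorem map_twist_twistProd {ζ : Rˣ} (hζ : ζ ^ ℓ = 1) (y : LaurentSeries R) :
    (twistProd ℓ ζ y).map (twist ζ) = twistProd ℓ ζ y := by
  have hmap : (twistProd ℓ ζ y).map (twist ζ)
      = ∏ b ∈ Finset.range ℓ, (X - C (twist (ζ ^ (b + 1)) y)) := by
    rw [twistProd, Polynomial.map_prod]
    refine Finset.prod_congr rfl fun b _ => ?_
    rw [Polynomial.map_sub, Polynomial.map_X, Polynomial.map_C, twist_pow_succ]
  rw [hmap]
  have h1 := Finset.prod_range_succ' (fun b => (X - C (twist (ζ ^ b) y) : (LaurentSeries R)[X])) ℓ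
  have h2 := Finset.prod_range_succ (fun b => (X - C (twist (ζ ^ b) y) : (LaurentSeries R)[X])) ℓ
  rw [h1, hζ, pow_zero] at h2
  exact (monic_X_sub_C (twist (1 : Rˣ) y)).isRegular.right h2

theorem map_coeffMap_twistProd {k : Type*} [CommRing k] (red : R →+* k) {ζ : Rˣ}
    (hred : red ζ = 1) (y : LaurentSeries R) :
    (twistProd ℓ ζ y).map (coeffMap red) = (X - C (coeffMap red y)) ^ ℓ := by
  rw [twistProd, Polynomial.map_prod]
  have : ∀ b ∈ Finset.range ℓ,
      (X - C (twist (ζ ^ b) y) : (LaurentSeries R)[X]).map (coeffMap red)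
        = X - C (coeffMap red y) := by
    intro b _
    rw [Polynomial.map_sub, Polynomial.map_X, Polynomial.map_C, coeffMap_twist]
    rw [Units.val_pow_eq_pow_val, map_pow, hred, one_pow]
  rw [Finset.prod_congr rfl this, Finset.prod_const, Finset.card_range]

end Product

/-! ### Kronecker's congruence -/

theorem coeffMap_qExpand {k : Type*} [CommRing k] (red : R →+* k) (ℓ : ℕ) [NeZero ℓ]
    (x : LaurentSeries R) : coeffMap red (qExpand R ℓ x) = qExpand k ℓ (coeffMap red x) := by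
  ext n
  by_cases hn : (ℓ : ℤ) ∣ n
  · obtain ⟨m, rfl⟩ := hn
    rw [coeffMap_coeff, qExpand_coeff_mul, qExpand_coeff_mul, coeffMap_coeff]
  · rw [coeffMap_coeff, qExpand_coeff_of_not_dvd ℓ _ hn, qExpand_coeff_of_not_dvd ℓ _ hn,
      map_zero]

/-- the polynomial `Q` with `Q(t^ℓ) = ∏_{b<ℓ} (X − y(ζ^b t))` -/
def kronPoly (ℓ : ℕ) [NeZero ℓ] (ζ : Rˣ) (y : LaurentSeries R) : (LaurentSeries R)[X] :=
  ∑ i ∈ Finset.range (ℓ + 1), Polynomial.monomial i (qContract ℓ ((twistProd ℓ ζ y).coeff i))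

theorem kronPoly_coeff [Nontrivial R] (ℓ : ℕ) [NeZero ℓ] (ζ : Rˣ) (y : LaurentSeries R) (i : ℕ) :
    (kronPoly ℓ ζ y).coeff i = qContract ℓ ((twistProd ℓ ζ y).coeff i) := by
  rw [kronPoly, Polynomial.finsetSum_coeff]
  simp only [Polynomial.coeff_monomial]
  rw [Finset.sum_ite_eq' (Finset.range (ℓ + 1)) i]
  split_ifs with h
  · rfl
  · rw [Polynomial.coeff_eq_zero_of_natDegree_lt, qContract_zero]
    rw [twistProd_natDegree]
    rw [Finset.mem_range] at h
    omega

/-- `Q(t^ℓ) = ∏_{b<ℓ} (X − y(ζ^b t))` -/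
theorem map_qExpand_kronPoly [IsDomain R] (ℓ : ℕ) [NeZero ℓ] {ζ : Rˣ} (hζ : IsPrimitiveRoot ζ ℓ)
    (y : LaurentSeries R) : (kronPoly ℓ ζ y).map (qExpand R ℓ) = twistProd ℓ ζ y := by
  ext i : 1
  rw [Polynomial.coeff_map, kronPoly_coeff]
  refine qExpand_qContract ℓ fun n hn => kc_coeff_eq_zero_of_twist_eq ℓ hζ ?_ hn
  have h := congrArg (fun P : (LaurentSeries R)[X] => P.coeff i)
    (map_twist_twistProd ℓ hζ.pow_eq_one y)
  simpa only [Polynomial.coeff_map] using h

theorem kronPoly_monic [IsDomain R] (ℓ : ℕ) [NeZero ℓ] {ζ : Rˣ} (hζ : IsPrimitiveRoot ζ ℓ)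
    (y : LaurentSeries R) : (kronPoly ℓ ζ y).Monic := by
  refine Polynomial.monic_of_injective (qExpand_injective ℓ) ?_
  rw [map_qExpand_kronPoly ℓ hζ]
  exact twistProd_monic ℓ ζ y

theorem kronPoly_natDegree [IsDomain R] (ℓ : ℕ) [NeZero ℓ] {ζ : Rˣ} (hζ : IsPrimitiveRoot ζ ℓ)
    (y : LaurentSeries R) : (kronPoly ℓ ζ y).natDegree = ℓ := by
  rw [← Polynomial.natDegree_map_eq_of_injective (qExpand_injective (R := R) ℓ),
    map_qExpand_kronPoly ℓ hζ, twistProd_natDegree]

/-- **Kronecker's congruence**: `Q ≡ X^ℓ − y^{(ℓ)}` modulo `1 − ζ`. -/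
theorem map_coeffMap_kronPoly [IsDomain R] {k : Type*} [CommRing k] (ℓ : ℕ) [hℓ : Fact ℓ.Prime]
    [CharP k ℓ] [NeZero ℓ] {ζ : Rˣ} (hζ : IsPrimitiveRoot ζ ℓ) (red : R →+* k)
    (hred : red ζ = 1) (y : LaurentSeries R) :
    (kronPoly ℓ ζ y).map (coeffMap red) =
      X ^ ℓ - C (coeffMap (frobenius k ℓ) (coeffMap red y)) := by
  apply Polynomial.map_injective (qExpand k ℓ) (qExpand_injective ℓ)
  have hcomm : (coeffMap red).comp (qExpand R ℓ) = (qExpand k ℓ).comp (coeffMap red) :=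
    RingHom.ext fun x => coeffMap_qExpand red ℓ x
  rw [Polynomial.map_map, ← hcomm, ← Polynomial.map_map, map_qExpand_kronPoly ℓ hζ,
    map_coeffMap_twistProd ℓ red hred, Polynomial.map_sub, Polynomial.map_pow, Polynomial.map_X,
    Polynomial.map_C, ← kc_pow_char]
  have : CharP (LaurentSeries k) ℓ :=
    charP_of_injective_ringHom (f := (HahnSeries.C : k →+* LaurentSeries k))
      HahnSeries.C_injective ℓ
  have : CharP (LaurentSeries k)[X] ℓ :=
    charP_of_injective_ringHom (f := (Polynomial.C : LaurentSeries k →+* (LaurentSeries k)[X]))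
      Polynomial.C_injective ℓ
  rw [sub_pow_char, ← Polynomial.C_pow]

end Fermat.Agent.Kron

end
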